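import Mathlib
import Fermat.Agent.Lib.RR.Weil

set_option autoImplicit false

/-!
# Deuring's reduction of divisors (abstract), setup

`F / K` and `Fk / k` function fields in the sense of `Fermat.Agent.RR.IsRRField`, a valuation ring
`A` of `K` with residue map `res : A → k`, a valuation ring `Ov` of `F` ("Gauss valuation") with
residue map `ρ : Ov → Fk`, such that the value group of `Ov` is the value group of `A`
(`scale`).  This is `Fermat.Agent.S18Key.RedSetup` without the place map `r` and without `push`:
the purpose of this library is to CONSTRUCT `r` (with `push` and the lifting property `(GR)`) from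
the lattice property and genus equality.
-/

noncomputable section

open AlgebraicCurve Fermat.Agent.RR

namespace Fermat.Agent.Deuring

/-- A function field with a constant reduction. -/
structure ValSetup (K F k Fk : Type*) [Field K] [Field F] [Algebra K F]
    [Field k] [Field Fk] [Algebra k Fk] where
  /-- the valuation ring of the constant field -/
  A : ValuationSubring K
  /-- the (Gauss) valuation ring of the function field -/
  Ov : ValuationSubring F
  /-- residue map of the constants -/
  res : A →+* k
  /-- residue map of the function field -/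
  ρ : Ov →+* Fk
  /-- standing hypotheses of the Riemann-Roch library, generic fibre -/
  hF : IsRRField K F
  /-- standing hypotheses of the Riemann-Roch library, special fibre -/
  hFk : IsRRField k Fk
  res_surj : Function.Surjective res
  ρ_surj : Function.Surjective ρ
  /-- `Ov ∩ K = A` -/
  mem_Ov_iff : ∀ c : K, algebraMap K F c ∈ Ov ↔ c ∈ A
  /-- `ρ` restricted to constants is `res` -/
  ρ_algebraMap : ∀ (c : K) (hc : c ∈ A) (hc' : algebraMap K F c ∈ Ov),
    ρ ⟨algebraMap K F c, hc'⟩ = algebraMap k Fk (res ⟨c, hc⟩)
  /-- the kernel of `ρ` is the maximal ideal of `Ov` -/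
  ρ_eq_zero_iff : ∀ f : Ov, ρ f = 0 ↔ ¬ IsUnit f
  /-- every `f ≠ 0` is a constant times a unit of `Ov` -/
  scale : ∀ f : F, f ≠ 0 → ∃ c : K, c ≠ 0 ∧
    f * (algebraMap K F c)⁻¹ ∈ Ov ∧ (f * (algebraMap K F c)⁻¹)⁻¹ ∈ Ov

variable {K F k Fk : Type*} [Field K] [Field F] [Algebra K F]
  [Field k] [Field Fk] [Algebra k Fk]

open Classical in
/-- the reduction map as a total function: `ρ` on `Ov`, `0` outside. -/
def ValSetup.red (S : ValSetup K F k Fk) (f : F) : Fk :=
  if h : f ∈ S.Ov then S.ρ ⟨f, h⟩ else 0

/-- The LATTICE property (orthonormal bases): every finite-dimensional `K`-subspace of `F` is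
spanned by elements of `Ov` whose reductions are `k`-linearly independent. -/
def HasLattice (S : ValSetup K F k Fk) : Prop :=
  ∀ W : Submodule K F, FiniteDimensional K W →
    ∃ (n : ℕ) (w : Fin n → F), (∀ i, w i ∈ W) ∧ (∀ i, w i ∈ S.Ov) ∧
      Submodule.span K (Set.range w) = W ∧ LinearIndependent k (fun i => S.red (w i))

/-- the set of reductions of the integral elements of a subspace. -/
def redSet (S : ValSetup K F k Fk) (W : Submodule K F) : Set Fk :=
  {y | ∃ x ∈ W, x ∈ S.Ov ∧ S.red x = y}

/-- the reduction of a `K`-subspace `W` of `F`: the `k`-span of the reductions of `W ∩ Ov`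
(the span is the set itself, see `mem_redSpace_iff`). -/
def redSpace (S : ValSetup K F k Fk) (W : Submodule K F) : Submodule k Fk :=
  Submodule.span k (redSet S W)

end Fermat.Agent.Deuring
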